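import Fermat.Agent.CFT.Global.Num.LocIndex
import Fermat.Agent.CFT.LS.Inst

/-!
# CFT / Global / Num : `#H^1(D_A ∩ Fix F, F_p) ≤ p² Nv^{ord_v p}` and the sum over a family of places.
-/

set_option autoImplicit false

noncomputable section

namespace Fermat.Agent.CFT.Global

open Fermat.Agent.CFT Fermat.Agent.S14 Fermat.Agent.Bridge IsDedekindDomain NumberField Module
open scoped Pointwise

variable {p : ℕ} [Fact p.Prime]

theorem isGalAct_locLev (W : Subgroup GQ) (A : ValuationSubring Qb) :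
    Br.IsGalAct Qb (locLev W A) := by
  refine LS.isGalAct_of_hom (W.subtype.comp (locSub W A).subtype) (fun _ _ => rfl) _ fun X => ?_
  constructor
  · rintro ⟨_, ⟨U, hU, rfl⟩, rfl⟩
    exact ⟨U, hU, rfl⟩
  · rintro ⟨U, hU, rfl⟩
    exact ⟨_, ⟨U, hU, rfl⟩, rfl⟩

theorem exists_pow_eq_Qb (x : Qbˣ) : ∃ y : Qbˣ, y ^ p = x := by
  have hp : p.Prime := Fact.out
  obtain ⟨y, hy⟩ := IsAlgClosed.exists_pow_nat_eq (x : Qb) hp.pos
  have hy0 : y ≠ 0 := by
    rintro rfl
    rw [zero_pow hp.ne_zero] at hy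
    exact x.ne_zero hy.symm
  exact ⟨Units.mk0 y hy0, Units.ext hy⟩

/-- **local Kummer count**. -/
theorem card_locH1_le (F : IntermediateField ℚ Qb) [FiniteDimensional ℚ F] {ζ : ↥F}
    (hζ : IsPrimitiveRoot ζ p) {A : ValuationSubring Qb} {ℓ : ℕ} (hℓ : ℓ.Prime)
    (hA : A.LiesOverPrime ℓ) :
    Nat.card (H1 (locLev F.fixingSubgroup A)
      (1 : Representation (ZMod p) ↥(locSub F.fixingSubgroup A) (ZMod p))) ≠ 0 ∧
    Nat.card (H1 (locLev F.fixingSubgroup A)
      (1 : Representation (ZMod p) ↥(locSub F.fixingSubgroup A) (ZMod p))) ≤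
      p ^ 2 * Ideal.absNorm (plA F hℓ A hA).asIdeal ^ (ord (plA F hℓ A hA) (p : ↥F)).toNat := by
  have hp : p.Prime := Fact.out
  set G := ↥(locSub F.fixingSubgroup A) with hG
  have hζ' : IsPrimitiveRoot (emb F ζ) p := hζ.map_of_injective (emb F).injective
  set z : Qbˣ := Units.mk0 (emb F ζ) (hζ'.ne_zero hp.ne_zero) with hz
  have hz' : IsPrimitiveRoot z p := by
    rw [← IsPrimitiveRoot.coe_units_iff]
    exact hζ'
  have hχ : ∀ g : G, Br.uAct G Qb g z = z ^ (((1 : G →* (ZMod p)ˣ) g : (ZMod p)ˣ) : ZMod p).val := by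
    intro g
    have : Fact (1 < p) := ⟨hp.one_lt⟩
    rw [MonoidHom.one_apply, Units.val_one, ZMod.val_one, pow_one]
    apply Units.ext
    have h1 : ((g : ↥F.fixingSubgroup) : GQ) ∈ F.fixingSubgroup := (g : ↥F.fixingSubgroup).2
    rw [IntermediateField.mem_fixingSubgroup_iff] at h1
    exact h1 _ ζ.2
  have hcard := Br.card_H1_mu (isGalAct_locLev F.fixingSubgroup A) (exists_pow_eq_Qb (p := p))
    hz' hχ
  have hrep : chiRep (1 : G →* (ZMod p)ˣ) = (1 : Representation (ZMod p) G (ZMod p)) :=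
    Representation.twist_one _
  rw [hrep] at hcard
  rw [hcard]
  refine index_pow_fixed_le (φ := emb F) hℓ hA hζ _ fun u => ?_
  constructor
  · intro hu σ hσ
    have hσ2 : σ ∈ F.fixingSubgroup := by rw [← fixer_emb]; exact hσ.2
    exact congrArg Units.val (hu ⟨⟨σ, hσ2⟩, hσ.1⟩)
  · intro hu g
    apply Units.ext
    refine hu _ ⟨g.2, ?_⟩
    rw [fixer_emb]
    exact (g : ↥F.fixingSubgroup).2

theorem ord_natCast_eq_zero {K : Type*} [Field K] [NumberField K] {v : Pl K} {n : ℕ}
    (h : ¬ Above n v) : ord v (n : K) = 0 := by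
  have h1 := valuation_coe_eq_one_of_notMem v h
  rw [ord, show (n : K) = (((n : 𝓞 K) : 𝓞 K) : K) by simp, h1]
  simp

/-- the product of the local factors over an injective family of places is at most `p ^ n`. -/
theorem prod_absNorm_pow_le {K : Type*} [Field K] [NumberField K] {ι : Type*} [Fintype ι]
    (v : ι → Pl K) (hv : Function.Injective v) :
    ∏ i, Ideal.absNorm (v i).asIdeal ^ (ord (v i) (p : K)).toNat ≤ p ^ finrank ℚ K := by
  classical
  have hp : p.Prime := Fact.out
  rw [← prod_absNorm_pow_above (F := K) p hp.ne_zero, ← Finset.prod_image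
    (s := Finset.univ) (g := v) (f := fun w => Ideal.absNorm w.asIdeal ^ (ord w (p : K)).toNat)
    (fun a _ b _ h => hv h)]
  have h1 : ∏ w ∈ Finset.univ.image v, Ideal.absNorm w.asIdeal ^ (ord w (p : K)).toNat =
      ∏ w ∈ (Finset.univ.image v).filter (fun w => Above p w),
        Ideal.absNorm w.asIdeal ^ (ord w (p : K)).toNat := by
    rw [Finset.prod_filter]
    refine Finset.prod_congr rfl fun w _ => ?_
    split_ifs with h
    · rfl
    · rw [ord_natCast_eq_zero h]; simp
  rw [h1]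
  refine Finset.prod_le_prod_of_subset_of_one_le' ?_ fun w _ _ => ?_
  · intro w hw
    rw [Finset.mem_filter] at hw
    rw [Set.Finite.mem_toFinset]
    exact hw.2
  · exact Nat.one_le_pow _ _ (absNorm_pos w)

end Fermat.Agent.CFT.Global
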