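import Fermat.Agent.CFT.Global.GC.Setup
import Fermat.Agent.CFT.Global.LocalIndex
import Fermat.Agent.CFT.Br.Kummer

/-!
# CFT / Global / Num : `(k^× : k^{×p}) ≤ p² Nv^{ord_v p}` for the henselisation `k` of a number field.
-/

set_option autoImplicit false

noncomputable section

namespace Fermat.Agent.CFT.Global

open Fermat.Agent.CFT Fermat.Agent.S14 Fermat.Agent.Bridge IsDedekindDomain NumberField
open scoped Pointwise

/-- a subgroup covered by finitely many cosets has finite index -/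
theorem index_le_of_cover {G ι : Type*} [Group G] [Fintype ι] (H : Subgroup G) (f : ι → G)
    (h : ∀ x : G, ∃ i, (f i)⁻¹ * x ∈ H) : H.index ≠ 0 ∧ H.index ≤ Fintype.card ι := by
  have hs : Function.Surjective (fun i => (f i : G ⧸ H)) := by
    intro x
    obtain ⟨x, rfl⟩ := QuotientGroup.mk_surjective x
    obtain ⟨i, hi⟩ := h x
    exact ⟨i, QuotientGroup.eq.2 hi⟩
  have hfin : Finite (G ⧸ H) := Finite.of_surjective _ hs
  refine ⟨Nat.card_pos.ne', ?_⟩
  rw [Subgroup.index, ← Nat.card_eq_fintype_card]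
  exact Nat.card_le_card_of_surjective _ hs

variable {p : ℕ} [Fact p.Prime] {K : Type*} [Field K] [NumberField K] {φ : K →+* Qb}
  {A : ValuationSubring Qb} {ℓ : ℕ}

/-- every element of the henselisation is an element of `K` times a `p`-th power. -/
theorem exists_mul_pow_of_fixed (hℓ : ℓ.Prime) (hA : A.LiesOverPrime ℓ) {y : Qb} (hy0 : y ≠ 0)
    (hy : ∀ σ ∈ locGroup φ A, σ y = y) :
    ∃ c : K, c ≠ 0 ∧ ∃ z : Qb, z ^ p = y / φ c ∧ ∀ σ ∈ locGroup φ A, σ z = z := by
  have hp : p.Prime := Fact.out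
  have : NeZero p := ⟨hp.ne_zero⟩
  obtain ⟨ζ, hζ⟩ := HasEnoughRootsOfUnity.exists_primitiveRoot Qb p
  have hb : ((ℓ : K) * (p : K) ^ 2) ≠ 0 :=
    mul_ne_zero (by exact_mod_cast hℓ.ne_zero) (pow_ne_zero _ (by exact_mod_cast hp.ne_zero))
  obtain ⟨c, hc0, -, h1⟩ := exists_close_of_fixed' (φ := φ) hℓ hA hy0 hy hb
  have hp0 : A.valuation (p : Qb) ≠ 0 :=
    (A.valuation.ne_zero_iff).mpr (by exact_mod_cast hp.ne_zero)
  have h2 : A.valuation (y / φ c - 1) < A.valuation (ζ - 1) ^ p := by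
    rw [map_mul, map_pow, map_natCast, map_natCast, map_mul, map_pow] at h1
    refine lt_of_le_of_lt h1 (lt_of_lt_of_le ?_ (valuation_natCast_sq_le hp hζ))
    have hℓ1 : A.valuation (ℓ : Qb) < 1 := A.mem_nonunits_iff.mp hA
    calc _ < 1 * A.valuation (p : Qb) ^ 2 :=
          mul_lt_mul_of_pos_right hℓ1 (zero_lt_iff.mpr (pow_ne_zero _ hp0))
      _ = _ := one_mul _
  obtain ⟨z, hzp, -, hz⟩ := exists_root_fixed hp hζ h2
  refine ⟨c, hc0, z, hzp, fun σ hσ => hz σ hσ.1 ?_⟩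
  rw [map_div₀, hy σ hσ, hσ.2 c]

/-- **local index bound**, for the group `P` of units of the henselisation of `K` at `A`. -/
theorem index_pow_fixed_le (hℓ : ℓ.Prime) (hA : A.LiesOverPrime ℓ) {ζ : K}
    (hζ : IsPrimitiveRoot ζ p) (P : Subgroup Qbˣ)
    (hP : ∀ u : Qbˣ, u ∈ P ↔ ∀ σ ∈ locGroup φ A, σ (u : Qb) = u) :
    (powMonoidHom p : ↥P →* ↥P).range.index ≠ 0 ∧
    (powMonoidHom p : ↥P →* ↥P).range.index ≤
      p ^ 2 * Ideal.absNorm (placeBelow φ hℓ A hA).asIdeal ^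
        (ord (placeBelow φ hℓ A hA) (p : K)).toNat := by
  classical
  have hp : p.Prime := Fact.out
  set v := placeBelow φ hℓ A hA with hv
  obtain ⟨R, hR, hR0, hcov⟩ := index_le hζ v
  have hmem : ∀ r : ↥R, Units.mk0 (φ r.1) ((map_ne_zero φ).2 (hR0 r.1 r.2)) ∈ P := by
    intro r
    rw [hP]
    intro σ hσ
    exact hσ.2 r.1
  obtain ⟨h1, h2⟩ := index_le_of_cover (powMonoidHom p : ↥P →* ↥P).range
    (fun r : ↥R => (⟨_, hmem r⟩ : ↥P)) (by
      intro y
      have hy := (hP y.1).1 y.2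
      obtain ⟨c, hc0, z, hz, hzf⟩ := exists_mul_pow_of_fixed (p := p) hℓ hA y.1.ne_zero hy
      obtain ⟨r, hr, hloc⟩ := hcov c hc0
      have hr0 := hR0 r hr
      obtain ⟨t, ht, htf⟩ := (exists_root_fixed_iff (φ := φ) hℓ hA (v := v) rfl hp
        (div_ne_zero hc0 hr0)).2 hloc
      have hc0' : φ c ≠ 0 := (map_ne_zero φ).2 hc0
      have hr0' : φ r ≠ 0 := (map_ne_zero φ).2 hr0
      have hz0 : z ≠ 0 := by
        rintro rfl
        rw [zero_pow hp.ne_zero] at hz
        exact div_ne_zero y.1.ne_zero hc0' hz.symm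
      have ht0 : t ≠ 0 := by
        rintro rfl
        rw [zero_pow hp.ne_zero, map_div₀] at ht
        exact div_ne_zero hc0' hr0' ht.symm
      have hzt : Units.mk0 (z * t) (mul_ne_zero hz0 ht0) ∈ P := by
        rw [hP]
        intro σ hσ
        rw [Units.val_mk0, map_mul, hzf σ hσ, htf σ hσ]
      refine ⟨⟨r, hr⟩, ⟨⟨_, hzt⟩, ?_⟩⟩
      apply Subtype.ext
      apply Units.ext
      simp only [powMonoidHom_apply, Subgroup.coe_pow, Units.val_pow_eq_pow_val, Units.val_mk0,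
        Subgroup.coe_mul, Subgroup.coe_inv, Units.val_mul, Units.val_inv_eq_inv_val]
      rw [mul_pow, hz, ht, map_div₀]
      field_simp)
  refine ⟨h1, h2.trans ?_⟩
  rw [Fintype.card_coe]
  exact hR

end Fermat.Agent.CFT.Global
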