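import Fermat.Agent.CFT.F.Shapiro.Defs

/-!
# CFT / Global / Num : existence of `RestrData` (representatives of double cosets).
-/

set_option autoImplicit false

namespace Fermat.Agent.CFT.Global

open Fermat.Agent.CFT

/-- the relation "same double coset `G_v x W`" on `G ⧸ W` -/
def dcSetoid (D : Datum) (W : Subgroup D.G) (v : D.ι) : Setoid (D.G ⧸ W) where
  r x y := ∃ h : D.Gv v, x = D.r v h • y
  iseqv :=
    { refl := fun x => ⟨1, by simp⟩
      symm := by
        rintro x y ⟨h, rfl⟩
        exact ⟨h⁻¹, by simp⟩
      trans := by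
        rintro x y z ⟨h, rfl⟩ ⟨h', rfl⟩
        exact ⟨h * h', by simp [mul_smul]⟩ }

/-- **(N1)** double coset representatives exist. -/
theorem nonempty_restrData (D : Datum) (W : Subgroup D.G) [W.FiniteIndex] :
    Nonempty (D.RestrData W) := by
  classical
  have hfin : ∀ v, Finite (Quotient (dcSetoid D W v)) := fun v => inferInstance
  refine ⟨{ O := fun v => Quotient (dcSetoid D W v)
            fin := fun v => Fintype.ofFinite _
            dec := fun v => Classical.decEq _
            g := fun v o => (Quotient.out o).out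
            bij := ?_ }⟩
  intro v x
  refine ⟨Quotient.mk _ x, ?_, ?_⟩
  · have h1 : (dcSetoid D W v).r x (Quotient.out (Quotient.mk (dcSetoid D W v) x)) :=
      (dcSetoid D W v).symm (Quotient.exact (Quotient.out_eq _))
    obtain ⟨h, hh⟩ := h1
    refine ⟨h, ?_⟩
    conv_lhs => rw [hh]
    conv_lhs => rw [← QuotientGroup.out_eq' (Quotient.out (Quotient.mk (dcSetoid D W v) x))]
    rfl
  · rintro o ⟨h, hh⟩
    have h2 : ((D.r v h * (Quotient.out o).out : D.G) : D.G ⧸ W) = D.r v h • Quotient.out o := by
      conv_rhs => rw [← QuotientGroup.out_eq' (Quotient.out o)]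
      rfl
    rw [← Quotient.out_eq o]
    exact (Quotient.sound (s := dcSetoid D W v) ⟨h, hh.trans h2⟩).symm

end Fermat.Agent.CFT.Global
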