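import Fermat.Agent.CFT.Global.GC.Setup
import Fermat.Agent.CFT.Global.Num.Restr

/-!
# CFT / Global / Num : (K2) double cosets `D_q \ G_ℚ / Fix L` are the places of `L` above `q`.
-/

set_option autoImplicit false

noncomputable section

namespace Fermat.Agent.CFT.Global

open Fermat.Agent.CFT Fermat.Agent.S14 Fermat.Agent.Bridge IsDedekindDomain NumberField ExtCitation
open scoped Pointwise

/-- the distinguished place over `q` lies over `q`. -/
theorem liesOverPrime_primeLocalPlace (q : Nat.Primes) :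
    (primeLocalPlace q).LiesOverPrime (q : ℕ) := by
  have : Fact (q : ℕ).Prime := ⟨q.2⟩
  change ((q : ℕ) : Qb) ∈ (padicPlace (q : ℕ)).nonunits
  rw [mem_nonunits_iff_inv]
  right
  rw [mem_padicPlace_iff, map_inv₀, map_natCast, nnnorm_inv, ← NNReal.coe_le_coe, NNReal.coe_inv,
    coe_nnnorm]
  have h1 : ‖(((q : ℕ) : ℚ_[(q : ℕ)]) : PadicAlgCl (q : ℕ))‖ = ‖((q : ℕ) : ℚ_[(q : ℕ)])‖ :=
    PadicAlgCl.norm_extends _ _
  have h2 : (((q : ℕ) : ℚ_[(q : ℕ)]) : PadicAlgCl (q : ℕ)) = ((q : ℕ) : PadicAlgCl (q : ℕ)) :=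
    map_natCast _ _
  rw [h2, Padic.norm_p] at h1
  rw [h1, inv_inv, NNReal.coe_one, not_le]
  exact_mod_cast q.2.one_lt

variable {S : Finset Nat.Primes} (L : IntermediateField ℚ Qb) [FiniteDimensional ℚ L]

/-- the place of `L` attached to the double coset `D_q σ Fix(L)`: the place below `σ⁻¹ A_q` -/
def plO (q : Nat.Primes) (σ : GQ) : Pl ↥L :=
  plA L q.2 (σ⁻¹ • primeLocalPlace q) (liesOverPrime_smul (liesOverPrime_primeLocalPlace q) σ⁻¹)

theorem plO_asIdeal (q : Nat.Primes) (σ : GQ) :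
    (plO L q σ).asIdeal = primeBelow (emb L) (σ⁻¹ • primeLocalPlace q) := rfl

theorem above_plO (q : Nat.Primes) (σ : GQ) : Above (q : ℕ) (plO L q σ) :=
  natCast_mem_primeBelow (emb L) (liesOverPrime_smul (liesOverPrime_primeLocalPlace q) σ⁻¹)

theorem plO_injective (R : (DS S).RestrData L.fixingSubgroup) (q : ↥S) :
    Function.Injective (fun o : R.O q => plO L q.1 (R.g q o)) := by
  intro o o' h
  have h1 : primeBelow (emb L) ((R.g q o)⁻¹ • primeLocalPlace q.1) =
      primeBelow (emb L) ((R.g q o')⁻¹ • primeLocalPlace q.1) := congrArg (·.asIdeal) h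
  obtain ⟨n, hn, hn'⟩ := exists_smul_eq_of_primeBelow_eq (emb L) q.1.2
    (liesOverPrime_smul (liesOverPrime_primeLocalPlace q.1) _)
    (liesOverPrime_smul (liesOverPrime_primeLocalPlace q.1) _) h1
  rw [fixer_emb] at hn
  -- `g' n g⁻¹ ∈ D`
  have h2 : R.g q o' * n * (R.g q o)⁻¹ ∈ decomp q.1 := by
    change (R.g q o' * n * (R.g q o)⁻¹) • primeLocalPlace q.1 = primeLocalPlace q.1
    rw [mul_smul, mul_smul, hn', smul_inv_smul]
  obtain ⟨o₀, -, huniq⟩ := R.bij q ((R.g q o' : GQ) : GQ ⧸ L.fixingSubgroup)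
  have e1 : o' = o₀ := huniq o' ⟨1, by simp⟩
  have e2 : o = o₀ := huniq o ⟨⟨_, h2⟩, by
    change _ = (((R.g q o' * n * (R.g q o)⁻¹) * R.g q o : GQ) : GQ ⧸ L.fixingSubgroup)
    rw [inv_mul_cancel_right, eq_comm, QuotientGroup.mk_mul_of_mem _ hn]⟩
  rw [e1, e2]

theorem plO_surjective (R : (DS S).RestrData L.fixingSubgroup) (q : ↥S) {v : Pl ↥L}
    (hv : Above ((q : Nat.Primes) : ℕ) v) : ∃ o : R.O q, plO L q.1 (R.g q o) = v := by
  have := v.isPrime
  obtain ⟨A', hA', hP⟩ := exists_place (emb L) q.1.2 v.asIdeal hv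
  obtain ⟨σ, hσ⟩ := exists_smul_eq q.1.2 (liesOverPrime_primeLocalPlace q.1) hA'
  obtain ⟨o, ⟨h, hh⟩, -⟩ := R.bij q ((σ⁻¹ : GQ) : GQ ⧸ L.fixingSubgroup)
  refine ⟨o, ?_⟩
  have h3 : ((h : GQ) * R.g q o)⁻¹ * σ⁻¹ ∈ L.fixingSubgroup := QuotientGroup.eq.1 hh.symm
  set w : GQ := ((h : GQ) * R.g q o)⁻¹ * σ⁻¹ with hw
  have h4 : (R.g q o)⁻¹ • primeLocalPlace q.1 = w • A' := by
    have h5 : (h : GQ)⁻¹ • primeLocalPlace q.1 = primeLocalPlace q.1 :=
      (decomp q.1).inv_mem h.2
    rw [← hσ, hw, mul_smul, inv_smul_smul, mul_inv_rev, mul_smul, h5]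
  apply HeightOneSpectrum.ext
  rw [plO_asIdeal, h4, primeBelow_smul_of_mem_fixer (emb L) (by rw [fixer_emb]; exact h3), hP]

/-- **(K2)** the number of double cosets is the number of places of `L` above `q`. -/
theorem card_O_eq (R : (DS S).RestrData L.fixingSubgroup) (q : ↥S) :
    Fintype.card (R.O q) =
      (finite_above (F := ↥L) ((q : Nat.Primes) : ℕ) q.1.2.ne_zero).toFinset.card := by
  classical
  rw [← Finset.card_univ, ← Finset.card_image_of_injective _ (plO_injective L R q)]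
  congr 1
  ext v
  simp only [Finset.mem_image, Finset.mem_univ, true_and, Set.Finite.mem_toFinset,
    Set.mem_ofPred_eq]
  constructor
  · rintro ⟨o, rfl⟩
    exact above_plO L q.1 _
  · exact fun hv => plO_surjective L R q hv

/-- **(K2)** the index set of the restricted datum has as many elements as `SPl S L`. -/
theorem card_sigma_O_eq (R : (DS S).RestrData L.fixingSubgroup) :
    Fintype.card (Σ q, R.O q) = (SPl S L).card := by
  classical
  rw [Fintype.card_sigma, SPl, Finset.card_biUnion]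
  · rw [← Finset.sum_coe_sort S]
    exact Finset.sum_congr rfl fun q _ => card_O_eq L R q
  · intro q _ q' _ hqq'
    rw [Function.onFun, Finset.disjoint_left]
    intro v hv hv'
    rw [Set.Finite.mem_toFinset] at hv hv'
    exact hqq' (Subtype.ext (above_unique q.2 q'.2 hv hv'))

end Fermat.Agent.CFT.Global
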